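import Fermat.Agent.S41.Tors.Contract

/-!
# S41 / Tors / Abs / FinEff : finitely many `τ`-fixed effective divisors of given degree
-/

set_option autoImplicit false

namespace Fermat.Agent.S41.Tors

open AlgebraicCurve Fermat.Agent.Lib.RR

variable {k F : Type*} [Field k] [Field F] [Algebra k F]

/-- (L5a) an effective divisor of degree `g` has at most `g` points and coefficients `≤ g`.
Recipe: `Basic_degree_eq_sum`, `deg_pos`; every term `E P * deg P ≥ 1` on the support. -/
theorem card_support_le [IsPreFF k F] {E : Divisor k F} (hE : 0 ≤ E) {g : ℕ}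
    (hg : Divisor.degree E = g) : E.support.card ≤ g ∧ ∀ P, E P ≤ g := by
  rw [Basic_degree_eq_sum, Finsupp.sum] at hg
  have hterm : ∀ P ∈ E.support, E P ≤ E P * (P.deg : ℤ) ∧ 1 ≤ E P * (P.deg : ℤ) := by
    intro P hP
    have h1 : 0 ≤ E P := hE P
    have h2 : E P ≠ 0 := Finsupp.mem_support_iff.1 hP
    have h3 : (1 : ℤ) ≤ P.deg := by exact_mod_cast deg_pos P
    have h4 : 1 ≤ E P := by omega
    constructor <;> nlinarith
  constructor
  · have h1 : ((E.support.card : ℕ) : ℤ) ≤ ∑ P ∈ E.support, E P * (P.deg : ℤ) := by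
      have := Finset.card_nsmul_le_sum E.support (fun P => E P * (P.deg : ℤ)) 1
        (fun P hP => (hterm P hP).2)
      simpa using this
    rw [hg] at h1
    exact_mod_cast h1
  · intro P
    by_cases hP : P ∈ E.support
    · have h1 := Finset.single_le_sum (f := fun P => E P * (P.deg : ℤ))
        (fun Q hQ => le_trans zero_le_one (hterm Q hQ).2) hP
      rw [hg] at h1
      exact (hterm P hP).1.trans h1
    · rw [Finsupp.notMem_support_iff.1 hP]
      exact Int.natCast_nonneg g

/-- (L5b) a point of a `τ`-fixed effective divisor of degree `g` is fixed by `τ ^ i` for some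
`1 ≤ i ≤ g`.
Recipe: the support of `E` is `τ`-stable (`SemilinearAut.divisor_smul_apply_smul` and `τ • E = E`), so the
`g + 1` points `τ ^ i • P`, `i ≤ g`, lie in a set with `≤ g` elements
(`Finset.exists_ne_map_eq_of_card_lt_of_maps_to` on `Finset.range (g + 1)`): `τ ^ a • P = τ ^ b • P` with
`a < b ≤ g`, hence `τ ^ (b - a) • P = P`. -/
theorem exists_pow_smul_of_mem_support [IsPreFF k F] (τ : SemilinearAut k F) {E : Divisor k F}
    (hE : 0 ≤ E) {g : ℕ} (hg : Divisor.degree E = g) (hτ : τ • E = E) {P : Place k F}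
    (hP : P ∈ E.support) : ∃ i : ℕ, 0 < i ∧ i ≤ g ∧ τ ^ i • P = P := by
  have hst : ∀ Q ∈ E.support, τ • Q ∈ E.support := by
    intro Q hQ
    rw [Finsupp.mem_support_iff] at hQ ⊢
    have h1 := SemilinearAut.divisor_smul_apply_smul τ E Q
    rw [hτ] at h1
    rwa [h1]
  have hpow : ∀ i : ℕ, τ ^ i • P ∈ E.support := by
    intro i
    induction i with
    | zero => rwa [pow_zero, one_smul]
    | succ i ih =>
      rw [pow_succ', mul_smul]
      exact hst _ ih
  have hcard : E.support.card < (Finset.range (g + 1)).card := by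
    rw [Finset.card_range]
    exact Nat.lt_succ_of_le (card_support_le hE hg).1
  obtain ⟨a, ha, b, hb, hab, heq⟩ := Finset.exists_ne_map_eq_of_card_lt_of_maps_to hcard
    (f := fun i => τ ^ i • P) (fun i _ => hpow i)
  have key : ∀ a b : ℕ, a < b → b ∈ Finset.range (g + 1) → τ ^ a • P = τ ^ b • P →
      ∃ i : ℕ, 0 < i ∧ i ≤ g ∧ τ ^ i • P = P := by
    intro a b hab hb heq
    refine ⟨b - a, by omega, by have := Finset.mem_range.1 hb; omega, ?_⟩
    have e : τ ^ b = τ ^ a * τ ^ (b - a) := by rw [← pow_add]; congr 1; omega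
    rw [e, mul_smul] at heq
    exact (smul_left_cancel _ heq).symm
  rcases lt_or_gt_of_ne hab with h | h
  · exact key a b h hb heq
  · exact key b a h ha heq.symm

/-- **(L5)** Recipe: `T := ⋃ i ∈ Finset.Icc 1 g, {P | τ ^ i • P = P}` is finite; by (L5a), (L5b) the set
is contained in `{E | E.support ⊆ T ∧ ∀ P, E P ∈ Finset.Icc 0 g}`, which is finite (e.g. it injects into
`T → Finset.Icc (0 : ℤ) g` by restriction; or `Finsupp.finite_of_...`/`Finset.finsupp`:
`(Finset.finsupp T.toFinset fun _ => Finset.Icc 0 (g : ℤ))`, `Finset.mem_finsupp_iff`). -/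
theorem finite_fixed_effective [IsPreFF k F] (τ : SemilinearAut k F)
    (H2 : ∀ m : ℕ, 0 < m → {P : Place k F | τ ^ m • P = P}.Finite) (g : ℕ) :
    {E : Divisor k F | 0 ≤ E ∧ Divisor.degree E = g ∧ τ • E = E}.Finite := by
  classical
  have hT : (⋃ i ∈ Finset.Icc 1 g, {P : Place k F | τ ^ i • P = P}).Finite :=
    Set.Finite.biUnion (Finset.finite_toSet _) fun i hi =>
      H2 i (Finset.mem_Icc.1 (Finset.mem_coe.1 hi)).1
  refine Set.Finite.subset
    (Finset.finite_toSet (Finset.finsupp hT.toFinset fun _ => Finset.Icc 0 (g : ℤ))) ?_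
  rintro E ⟨hE, hg, hτ⟩
  rw [Finset.mem_coe, Finset.mem_finsupp_iff]
  refine ⟨fun P hP => ?_, fun P _ => Finset.mem_Icc.2 ⟨hE P, (card_support_le hE hg).2 P⟩⟩
  obtain ⟨i, hi0, hig, hi⟩ := exists_pow_smul_of_mem_support τ hE hg hτ hP
  rw [Set.Finite.mem_toFinset, Set.mem_iUnion₂]
  exact ⟨i, Finset.mem_Icc.2 ⟨hi0, hig⟩, hi⟩

end Fermat.Agent.S41.Tors
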