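import Fermat.Agent.S41.Tors.Contract

/-!
# S41 / Tors / Abs / LSpace : semilinear automorphisms, principal divisors and the spaces `L(D)`
-/

set_option autoImplicit false

namespace Fermat.Agent.S41.Tors

open AlgebraicCurve Fermat.Agent.Lib.RR

variable {k F : Type*} [Field k] [Field F] [Algebra k F]

/-- **(L4)** `div (τ x) = τ (div x)`. -/
theorem divOf_smul [HasPrincipalDivisors k F] (τ : SemilinearAut k F) (x : F) :
    divOf (K := k) (τ • x) = τ • divOf (K := k) x := by
  ext w
  rw [SemilinearAut.divisor_smul_apply, divOf_apply, divOf_apply]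
  have h := SemilinearAut.ord_smul τ (τ⁻¹ • w) x
  rwa [smul_inv_smul] at h

/-- **(L3)** `L(D)` is stable under `τ` if `τ D = D`. -/
theorem smul_mem_L [HasPrincipalDivisors k F] (τ : SemilinearAut k F) {D : Divisor k F}
    (hD : τ • D = D) {x : F} (hx : x ∈ riemannRochSpace D) : τ • x ∈ riemannRochSpace D := by
  rw [mem_L_iff] at hx ⊢
  rcases hx with rfl | hx
  · left
    exact smul_zero τ
  · right
    intro w
    have h := hx (τ⁻¹ • w)
    rw [divOf_smul]
    conv_rhs => rw [← hD]
    rw [← smul_add, SemilinearAut.divisor_smul_apply]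
    exact h

end Fermat.Agent.S41.Tors
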