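import Fermat.Agent.S41.Tors.Abs.Place
import Fermat.Agent.S41.Tors.Abs.LSpace
import Fermat.Agent.S41.Tors.Abs.FinEff
import Fermat.Agent.GAL.FF.Corollaries

/-!
# S41 / Tors / Abs / Main : `Pic⁰` is torsion (abstract form)
-/

set_option autoImplicit false

namespace Fermat.Agent.S41.Tors

open AlgebraicCurve Fermat.Agent.Lib.RR

variable {k F : Type*} [Field k] [Field F] [Algebra k F]

/-- (L6a) for a `τ`-fixed divisor `B` of degree `g = genusFF` there is a `τ`-fixed `h ≠ 0` with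
`0 ≤ div h + B`.
Recipe: `exists_effective` gives `L(B) ≠ ⊥`; `smul_mem_L`; `H3`; `mem_L_iff`. -/
theorem exists_fixed_section [IsFF k F] (τ : SemilinearAut k F)
    (H3 : ∀ V : Submodule k F, V ≠ ⊥ → (∀ x ∈ V, τ • x ∈ V) → ∃ w ∈ V, w ≠ 0 ∧ τ • w = w)
    {B : Divisor k F} (hB : τ • B = B) (hdeg : (genusFF k F : ℤ) ≤ Divisor.degree B) :
    ∃ h : F, h ≠ 0 ∧ τ • h = h ∧ 0 ≤ divOf (K := k) h + B := by
  obtain ⟨f, hf, hfB⟩ := exists_effective (K := k) (F := F) hdeg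
  have hne : riemannRochSpace B ≠ ⊥ := by
    intro h
    have h1 : f ∈ riemannRochSpace B := mem_L_iff.2 (Or.inr hfB)
    rw [h, Submodule.mem_bot] at h1
    exact hf h1
  obtain ⟨w, hw, hw0, hwτ⟩ := H3 _ hne (fun x hx => smul_mem_L τ hB hx)
  refine ⟨w, hw0, hwτ, ?_⟩
  rcases mem_L_iff.1 hw with h | h
  · exact absurd h hw0
  · exact h

/-- **(L6)** abstract torsion theorem.
Recipe: `P₀` any place (`IsPreFF.nonempty`), `g := genusFF k F`.  By `exists_pow_smul_divisor` applied to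
`D` and to `pt P₀` there is `m > 0` with `τ := σ ^ m` fixing both (product of the two exponents).
For `n : ℕ` put `B n := n • D + g • pt P₀` (`τ`-fixed, of degree `g * deg P₀ ≥ g`; with `IsAlgClosed`,
`GAL.FF.deg_eq_one_of_isAlgClosed`, it is `g`), `h n` from `exists_fixed_section`
(`H3 m`), `E n := divOf (h n) + B n`: effective, of degree `g`, `τ`-fixed (`divOf_smul`).
`finite_fixed_effective τ` (with `H2 (m * i)`, `pow_mul`) and `Finite.exists_ne_map_eq_of_infinite`: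
`E a = E b` with `a < b`; then `divOf (h a / h b) = (b - a) • D`. -/
theorem torsion_abs [IsAlgClosed k] [IsFF k F] (σ : SemilinearAut k F)
    (H1 : ∀ x : F, ∃ m : ℕ, 0 < m ∧ σ ^ m • x = x)
    (H2 : ∀ m : ℕ, 0 < m → {P : Place k F | σ ^ m • P = P}.Finite)
    (H3 : ∀ m : ℕ, 0 < m → ∀ V : Submodule k F, V ≠ ⊥ → (∀ x ∈ V, σ ^ m • x ∈ V) →
      ∃ w ∈ V, w ≠ 0 ∧ σ ^ m • w = w)
    (D : Divisor k F) (hD : Divisor.degree D = 0) :
    ∃ n : ℕ, 0 < n ∧ ∃ h : F, h ≠ 0 ∧ divOf (K := k) h = n • D := by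
  obtain ⟨P₀⟩ := (IsPreFF.nonempty : Nonempty (Place k F))
  obtain ⟨m₁, hm₁, h₁⟩ := exists_pow_smul_divisor σ H1 D
  obtain ⟨m₂, hm₂, h₂⟩ := exists_pow_smul_divisor σ H1 (pt P₀)
  have hpow : ∀ (τ : SemilinearAut k F) (E : Divisor k F), τ • E = E → ∀ n : ℕ, τ ^ n • E = E := by
    intro τ E h n
    induction n with
    | zero => simp
    | succ n ih => rw [pow_succ, mul_smul, h, ih]
  have hm : 0 < m₁ * m₂ := Nat.mul_pos hm₁ hm₂
  obtain ⟨τ, hτ⟩ : ∃ τ : SemilinearAut k F, τ = σ ^ (m₁ * m₂) := ⟨_, rfl⟩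
  have hτD : τ • D = D := by
    rw [hτ, pow_mul]
    exact hpow _ _ h₁ _
  have hτP : τ • pt P₀ = pt P₀ := by
    rw [hτ, mul_comm, pow_mul]
    exact hpow _ _ h₂ _
  have hB : ∀ n : ℕ, τ • (n • D + genusFF k F • pt P₀) = n • D + genusFF k F • pt P₀ := by
    intro n
    rw [smul_add, smul_comm τ n D, smul_comm τ (genusFF k F) (pt P₀), hτD, hτP]
  have hdegB : ∀ n : ℕ, Divisor.degree (n • D + genusFF k F • pt P₀) = (genusFF k F : ℤ) := by
    intro n
    rw [map_add, map_nsmul, map_nsmul, hD, degree_pt, GAL.FF.Cor.deg_eq_one_of_isAlgClosed]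
    simp
  have H3' : ∀ V : Submodule k F, V ≠ ⊥ → (∀ x ∈ V, τ • x ∈ V) → ∃ w ∈ V, w ≠ 0 ∧ τ • w = w := by
    rw [hτ]
    exact H3 _ hm
  choose h hh0 hhτ hhE using fun n : ℕ =>
    exists_fixed_section τ H3' (hB n) (le_of_eq (hdegB n).symm)
  have hfin := finite_fixed_effective τ (fun i hi => by
    have h5 := H2 (m₁ * m₂ * i) (Nat.mul_pos hm hi)
    rwa [pow_mul, ← hτ] at h5) (genusFF k F)
  have hmem : ∀ n : ℕ, divOf (K := k) (h n) + (n • D + genusFF k F • pt P₀) ∈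
      {E : Divisor k F | 0 ≤ E ∧ Divisor.degree E = (genusFF k F : ℤ) ∧ τ • E = E} := by
    intro n
    refine ⟨hhE n, ?_, ?_⟩
    · rw [map_add, degree_divOf, hdegB, zero_add]
    · rw [smul_add, hB, ← divOf_smul, hhτ]
  have key : ∀ a b : ℕ, a < b →
      divOf (K := k) (h a) + (a • D + genusFF k F • pt P₀) =
        divOf (K := k) (h b) + (b • D + genusFF k F • pt P₀) →
      ∃ n : ℕ, 0 < n ∧ ∃ h : F, h ≠ 0 ∧ divOf (K := k) h = n • D := by
    intro a b hab heq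
    refine ⟨b - a, Nat.sub_pos_of_lt hab, h a / h b, div_ne_zero (hh0 a) (hh0 b), ?_⟩
    rw [div_eq_mul_inv, divOf_mul (hh0 a) (inv_ne_zero (hh0 b)), divOf_inv]
    ext v
    have h3 := DFunLike.congr_fun heq v
    simp only [Finsupp.add_apply, Finsupp.smul_apply, Finsupp.neg_apply, nsmul_eq_mul] at h3 ⊢
    rw [Nat.cast_sub hab.le]
    linarith
  have := hfin.to_subtype
  obtain ⟨a, b, hab, heq⟩ := Finite.exists_ne_map_eq_of_infinite
    (fun n : ℕ => (⟨_, hmem n⟩ : {E : Divisor k F | 0 ≤ E ∧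
      Divisor.degree E = (genusFF k F : ℤ) ∧ τ • E = E}))
  have heq' := congrArg Subtype.val heq
  rcases lt_or_gt_of_ne hab with h' | h'
  · exact key a b h' heq'
  · exact key b a h' heq'.symm

end Fermat.Agent.S41.Tors
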