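import Fermat.Agent.S41.Tors.Contract

/-!
# S41 / Tors / Abs / Place : a locally finite semilinear automorphism has finite orbits on places
-/

set_option autoImplicit false

namespace Fermat.Agent.S41.Tors

open AlgebraicCurve Fermat.Agent.Lib.RR

variable {k F : Type*} [Field k] [Field F] [Algebra k F]

theorem pow_smul_eq_of_smul_eq {G X : Type*} [Monoid G] [MulAction G X] {g : G} {x : X}
    (h : g • x = x) (n : ℕ) : g ^ n • x = x := by
  induction n with
  | zero => simp
  | succ n ih => rw [pow_succ, mul_smul, h, ih]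

/-- **(L1)** every place is fixed by a power of `σ`. -/
theorem exists_pow_smul_place [HasPrincipalDivisors k F] (σ : SemilinearAut k F)
    (H1 : ∀ x : F, ∃ m : ℕ, 0 < m ∧ σ ^ m • x = x) (P : Place k F) :
    ∃ m : ℕ, 0 < m ∧ σ ^ m • P = P := by
  classical
  obtain ⟨π, hπ⟩ := IsDiscreteValuationRing.exists_irreducible P.toValuationSubring
  have hord : P.ord (π : F) = 1 := Place.ord_coe_irreducible _ hπ
  obtain ⟨m, hm, hx⟩ := H1 (π : F)
  set τ := σ ^ m with hτ
  set Z := (divOf (K := k) (π : F)).support with hZ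
  have hstab : ∀ Q ∈ Z, τ • Q ∈ Z := by
    intro Q hQ
    rw [hZ, Finsupp.mem_support_iff, divOf_apply] at hQ ⊢
    have h := SemilinearAut.ord_smul τ Q (π : F)
    rw [hx] at h
    rwa [h]
  have hP : P ∈ Z := by
    rw [hZ, Finsupp.mem_support_iff, divOf_apply, hord]
    exact one_ne_zero
  have hall : ∀ i : ℕ, τ ^ i • P ∈ Z := by
    intro i
    induction i with
    | zero => simpa using hP
    | succ i ih =>
      rw [pow_succ', mul_smul]
      exact hstab _ ih
  obtain ⟨i, j, hij, hEq⟩ := Finite.exists_ne_map_eq_of_infinite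
    (fun i : ℕ => (⟨τ ^ i • P, hall i⟩ : Z))
  have hEq' : τ ^ i • P = τ ^ j • P := congrArg Subtype.val hEq
  have key : ∀ a b : ℕ, a < b → τ ^ a • P = τ ^ b • P → ∃ m : ℕ, 0 < m ∧ σ ^ m • P = P := by
    intro a b hab h
    refine ⟨m * (b - a), Nat.mul_pos hm (Nat.sub_pos_of_lt hab), ?_⟩
    rw [pow_mul, ← hτ]
    have hb : b = a + (b - a) := by omega
    rw [hb, pow_add, mul_smul] at h
    exact (smul_left_cancel _ h).symm
  rcases lt_or_gt_of_ne hij with h | h
  · exact key i j h hEq'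
  · exact key j i h hEq'.symm

/-- **(L2)** every divisor is fixed by a power of `σ`. -/
theorem exists_pow_smul_divisor [HasPrincipalDivisors k F] (σ : SemilinearAut k F)
    (H1 : ∀ x : F, ∃ m : ℕ, 0 < m ∧ σ ^ m • x = x) (D : Divisor k F) :
    ∃ m : ℕ, 0 < m ∧ σ ^ m • D = D := by
  induction D using Finsupp.induction_linear with
  | zero => exact ⟨1, one_pos, smul_zero _⟩
  | add D₁ D₂ h₁ h₂ =>
    obtain ⟨m₁, hm₁, h₁⟩ := h₁
    obtain ⟨m₂, hm₂, h₂⟩ := h₂
    refine ⟨m₁ * m₂, Nat.mul_pos hm₁ hm₂, ?_⟩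
    rw [smul_add]
    congr 1
    · rw [pow_mul]
      exact pow_smul_eq_of_smul_eq h₁ m₂
    · rw [mul_comm, pow_mul]
      exact pow_smul_eq_of_smul_eq h₂ m₁
  | single P n =>
    obtain ⟨m, hm, h⟩ := exists_pow_smul_place σ H1 P
    exact ⟨m, hm, by rw [SemilinearAut.smul_single, h]⟩

end Fermat.Agent.S41.Tors
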